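import Mathlib

set_option autoImplicit false

namespace FermatAgent.AbVar.Local

universe u v

variable {R : Type u} {S : Type v} [CommRing R] [CommRing S] [Algebra R S]
  [IsDomain S] [UniqueFactorizationMonoid S] [IsLocalRing S] [Module.FaithfullyFlat R S]

omit [IsDomain S] [UniqueFactorizationMonoid S] [IsLocalRing S] in
theorem dvd_of_dvd_map {d z : R} (h : algebraMap R S d ∣ algebraMap R S z) : d ∣ z := by
  rw [← Ideal.mem_span_singleton,
    ← Ideal.comap_map_eq_self_of_faithfullyFlat (B := S) (Ideal.span {d}), Ideal.mem_comap,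
    Ideal.map_span, Set.image_singleton, Ideal.mem_span_singleton]
  exact h

omit [IsDomain S] [UniqueFactorizationMonoid S] [IsLocalRing S] in
theorem injective_map : Function.Injective (algebraMap R S) := fun x y h => by
  have : (0 : R) ∣ x - y := dvd_of_dvd_map (S := S) (by rw [map_sub, h, sub_self, map_zero])
  exact sub_eq_zero.mp (zero_dvd_iff.mp this)

variable (S)

include S in
/-- Common multiples of two elements form a principal ideal. -/
theorem exists_least_common_multiple {a b : R} (ha : a ≠ 0) (hb : b ≠ 0) :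
    ∃ d, a ∣ d ∧ b ∣ d ∧ ∀ z, a ∣ z → b ∣ z → d ∣ z := by
  classical
  let : StrongNormalizationMonoid S := UniqueFactorizationMonoid.strongNormalizationMonoid
  let : NormalizedGCDMonoid S := UniqueFactorizationMonoid.toNormalizedGCDMonoid S
  let φ := algebraMap R S
  have hinj : Function.Injective φ := injective_map
  have ha' : φ a ≠ 0 := (map_ne_zero_iff φ hinj).mpr ha
  have hb' : φ b ≠ 0 := (map_ne_zero_iff φ hinj).mpr hb
  obtain ⟨u, hu⟩ := dvd_lcm_left (φ a) (φ b)
  obtain ⟨w, hw⟩ := dvd_lcm_right (φ a) (φ b)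
  have hrel : ∑ i, ![a, -b] i • ![u, w] i = 0 := by
    simp [Fin.sum_univ_two, Algebra.smul_def, φ, ← hu, ← hw]
  obtain ⟨ι, κ, y, hy, hf⟩ := Module.Flat.isTrivialRelation_of_sum_smul_eq_zero (R := R) (M := S) hrel
  set c := lcm (φ a) (φ b) with hc
  have hc0 : c ≠ 0 := lcm_ne_zero_iff.mpr ⟨ha', hb'⟩
  have hmul : ∀ j, ∃ t, φ (a * κ 0 j) = c * t := fun j => by
    refine lcm_dvd ?_ ?_
    · exact map_dvd φ (dvd_mul_right a _)
    · have h0 : a * κ 0 j = b * κ 1 j := by
        have := hf j
        simp [Fin.sum_univ_two] at this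
        linear_combination this
      rw [h0]
      exact map_dvd φ (dvd_mul_right b _)
  choose t ht using hmul
  have hu' : u = ∑ j, φ (κ 0 j) * y j := by
    simpa [Algebra.smul_def, φ] using hy 0
  have hsum : ∑ j, t j * y j = 1 := by
    apply mul_left_cancel₀ hc0
    rw [Finset.mul_sum, mul_one]
    calc ∑ j, c * (t j * y j) = ∑ j, φ a * (φ (κ 0 j) * y j) := by
          refine Finset.sum_congr rfl fun j _ => ?_
          rw [← mul_assoc, ← ht, map_mul, mul_assoc]
      _ = c := by rw [← Finset.mul_sum, ← hu', ← hu]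
  obtain ⟨j, hj⟩ : ∃ j, IsUnit (t j) := by
    by_contra h
    push Not at h
    refine (IsLocalRing.mem_maximalIdeal (1 : S)).mp ?_ isUnit_one
    rw [← hsum]
    exact Ideal.sum_mem _ fun j _ => Ideal.mul_mem_right _ _ (h j)
  refine ⟨a * κ 0 j, dvd_mul_right a _, ?_, fun z hza hzb => dvd_of_dvd_map (S := S) ?_⟩
  · have := hf j
    simp [Fin.sum_univ_two] at this
    exact ⟨κ 1 j, by linear_combination this⟩
  · change φ (a * κ 0 j) ∣ φ z
    rw [ht j]
    exact (hj.mul_right_dvd).mpr (lcm_dvd (map_dvd φ hza) (map_dvd φ hzb))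

include S in
/-- Descent of unique factorisation along a faithfully flat local extension. -/
theorem isDomain_and_uniqueFactorizationMonoid [Nontrivial R] [IsNoetherianRing R] :
    IsDomain R ∧ UniqueFactorizationMonoid R := by
  have hinj : Function.Injective (algebraMap R S) := injective_map
  have hdom : IsDomain R := hinj.isDomain
  refine ⟨hdom, ?_⟩
  refine { irreducible_iff_prime := fun {p} => ⟨fun hp => ?_, Prime.irreducible⟩ }
  refine ⟨hp.ne_zero, hp.not_isUnit, fun x y hxy => or_iff_not_imp_left.mpr fun hpx => ?_⟩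
  have hx0 : x ≠ 0 := fun h => hpx (h ▸ dvd_zero p)
  obtain ⟨d, hpd, ⟨t, rfl⟩, hd⟩ := exists_least_common_multiple S hp.ne_zero hx0
  have ht : t ∣ p := by
    have := hd (p * x) (dvd_mul_right p x) (dvd_mul_left x p)
    rw [mul_comm p x] at this
    exact (mul_dvd_mul_iff_left hx0).mp this
  rcases hp.dvd_iff.mp ht with h | h
  · exact absurd ((h.dvd_mul_right).mp hpd) hpx
  · have := hd (x * y) hxy (dvd_mul_right x y)
    exact h.dvd.trans ((mul_dvd_mul_iff_left hx0).mp this)

/-!
A Noetherian local ring whose completion is a unique factorisation domain is one itself.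
-/

end FermatAgent.AbVar.Local
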