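import Mathlib

set_option autoImplicit false

open MvPowerSeries

namespace FermatAgent.AbVar.Local

universe u

variable {K : Type u} [Field K]

/-- The maximal ideal of `K⟦X_1, …, X_n⟧` is generated by the variables. -/
theorem maximalIdeal_mvPowerSeries (n : ℕ) :
    IsLocalRing.maximalIdeal (MvPowerSeries (Fin n) K) =
      Ideal.span (Set.range (MvPowerSeries.X : Fin n → MvPowerSeries (Fin n) K)) := by
  refine le_antisymm ?_ ?_
  · induction n with
    | zero =>
      intro f hf
      have h0 : constantCoeff f = 0 := by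
        by_contra h
        exact hf (isUnit_iff_constantCoeff.mpr (isUnit_iff_ne_zero.mpr h))
      have : f = 0 := by
        ext d
        rw [Subsingleton.elim d 0, coeff_zero_eq_constantCoeff, h0, map_zero]
      rw [this]
      exact zero_mem _
    | succ n ih =>
      intro f hf
      let e := finSuccEquiv K n
      set F := e f with hF
      have hF0 : PowerSeries.constantCoeff F ∈
          IsLocalRing.maximalIdeal (MvPowerSeries (Fin n) K) := by
        intro h
        have hu : IsUnit F := PowerSeries.isUnit_iff_constantCoeff.mpr h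
        have h2 : IsUnit f := by simpa [hF] using hu.map e.symm
        exact hf h2
      have key : PowerSeries.X * PowerSeries.mk (fun p => PowerSeries.coeff (p + 1) F) +
          PowerSeries.C (PowerSeries.constantCoeff F) = F :=
        (PowerSeries.eq_X_mul_shift_add_const F).symm
      have hf' : f = X 0 * e.symm (PowerSeries.mk (fun p => PowerSeries.coeff (p + 1) F)) +
          e.symm (PowerSeries.C (PowerSeries.constantCoeff F)) := by
        apply e.injective
        rw [map_add, map_mul, AlgEquiv.apply_symm_apply, AlgEquiv.apply_symm_apply]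
        simp only [e, finSuccEquiv_X_zero]
        exact key.symm
      rw [hf']
      refine add_mem (Ideal.mul_mem_right _ _ (Ideal.subset_span ⟨0, rfl⟩)) ?_
      have hmem := Ideal.mem_map_of_mem
        ((e.symm.toRingEquiv.toRingHom).comp PowerSeries.C) (ih hF0)
      refine Ideal.map_le_iff_le_comap.mpr ?_ hmem
      rw [Ideal.span_le]
      rintro _ ⟨j, rfl⟩
      refine Ideal.subset_span ⟨j.succ, ?_⟩
      apply e.injective
      simp [e, finSuccEquiv_X_succ]
  · rw [Ideal.span_le]
    rintro _ ⟨j, rfl⟩
    intro h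
    have := isUnit_iff_constantCoeff.mp h
    simp at this

/-- `K⟦X_1, …, X_n⟧` is complete for its maximal ideal. -/
theorem isAdicComplete_mvPowerSeries (n : ℕ) :
    IsAdicComplete (IsLocalRing.maximalIdeal (MvPowerSeries (Fin n) K))
      (MvPowerSeries (Fin n) K) := by
  rw [maximalIdeal_mvPowerSeries]
  infer_instance

/-- Restriction of a power series to the first coordinate axis. -/
noncomputable def axis (n : ℕ) : MvPowerSeries (Fin (n + 1)) K →+* PowerSeries K :=
  (PowerSeries.map (constantCoeff (σ := Fin n) (R := K))).comp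
    (finSuccEquiv K n).toRingEquiv.toRingHom

theorem coeff_axis (n k : ℕ) (f : MvPowerSeries (Fin (n + 1)) K) :
    PowerSeries.coeff k (axis n f) = coeff (Finsupp.single 0 k) f := by
  have h : (Finsupp.single (0 : Fin (n + 1)) k) = Finsupp.cons k (0 : Fin n →₀ ℕ) := by
    ext i
    refine Fin.cases ?_ (fun j => ?_) i
    · simp
    · simp
  rw [h, ← coeff_coeff_finSuccEquiv]
  simp [axis, coeff_zero_eq_constantCoeff]

theorem axis_X_zero (n : ℕ) : axis (K := K) n (X 0) = PowerSeries.X := by
  simp [axis, finSuccEquiv_X_zero]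

theorem axis_X_succ (n : ℕ) (j : Fin n) : axis (K := K) n (X j.succ) = 0 := by
  simp [axis, finSuccEquiv_X_succ]

theorem axis_C (n : ℕ) (a : K) : axis n (C a) = PowerSeries.C a := by
  simp [axis, finSuccEquiv_C]

/-- The linear substitution moving the line through `c` to the first axis. -/
noncomputable def lineSubst {n : ℕ} (c : Fin (n + 1) → K) :
    Fin (n + 1) → MvPowerSeries (Fin (n + 1)) K :=
  Fin.cons (C (c 0) * X 0) (fun j => X j.succ + C (c j.succ) * X 0)

/-- The inverse of `lineSubst`. -/
noncomputable def lineSubstInv {n : ℕ} (c : Fin (n + 1) → K) :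
    Fin (n + 1) → MvPowerSeries (Fin (n + 1)) K :=
  Fin.cons (C (c 0)⁻¹ * X 0) (fun j => X j.succ - C (c j.succ * (c 0)⁻¹) * X 0)

theorem hasSubst_lineSubst {n : ℕ} (c : Fin (n + 1) → K) : HasSubst (lineSubst c) :=
  hasSubst_of_constantCoeff_zero fun i => by
    refine Fin.cases ?_ (fun j => ?_) i <;> simp [lineSubst]

theorem hasSubst_lineSubstInv {n : ℕ} (c : Fin (n + 1) → K) : HasSubst (lineSubstInv c) :=
  hasSubst_of_constantCoeff_zero fun i => by
    refine Fin.cases ?_ (fun j => ?_) i <;> simp [lineSubstInv]

theorem subst_C_mul_X {n : ℕ} {a : Fin (n + 1) → MvPowerSeries (Fin (n + 1)) K}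
    (ha : HasSubst a) (r : K) (i : Fin (n + 1)) : subst a (C r * X i) = C r * a i := by
  rw [subst_mul ha, subst_X ha, subst_C]

/-- The automorphism of `K⟦X_0, …, X_n⟧` given by `lineSubst c`. -/
noncomputable def lineEquiv {n : ℕ} (c : Fin (n + 1) → K) (hc : c 0 ≠ 0) :
    MvPowerSeries (Fin (n + 1)) K ≃ₐ[K] MvPowerSeries (Fin (n + 1)) K :=
  AlgEquiv.ofAlgHom (substAlgHom (hasSubst_lineSubst c))
    (substAlgHom (hasSubst_lineSubstInv c))
    (by
      refine AlgHom.ext fun f => ?_
      rw [AlgHom.comp_apply, substAlgHom_comp_substAlgHom_apply]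
      have h : (fun s => substAlgHom (R := K) (hasSubst_lineSubst c) (lineSubstInv c s)) = X := by
        funext s
        rw [substAlgHom_apply]
        refine Fin.cases ?_ (fun j => ?_) s
        · simp only [lineSubstInv, lineSubst, Fin.cons_zero]
          rw [subst_C_mul_X (by simpa [lineSubst, lineSubstInv] using hasSubst_lineSubst c), Fin.cons_zero,
            ← mul_assoc, ← map_mul, inv_mul_cancel₀ hc, map_one, one_mul]
        · simp only [lineSubstInv, lineSubst, Fin.cons_succ]
          have ha := hasSubst_lineSubst c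
          simp only [lineSubst] at ha
          rw [subst_sub ha, subst_X ha, subst_C_mul_X ha, Fin.cons_zero, Fin.cons_succ, ← mul_assoc,
            ← map_mul]
          field_simp
          ring
      simp only [AlgHom.id_apply, substAlgHom_apply]
      simp only [substAlgHom_apply] at h
      rw [h, subst_self, id_eq])
    (by
      refine AlgHom.ext fun f => ?_
      rw [AlgHom.comp_apply, substAlgHom_comp_substAlgHom_apply]
      have h : (fun s => substAlgHom (R := K) (hasSubst_lineSubstInv c) (lineSubst c s)) = X := by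
        funext s
        rw [substAlgHom_apply]
        refine Fin.cases ?_ (fun j => ?_) s
        · simp only [lineSubstInv, lineSubst, Fin.cons_zero]
          rw [subst_C_mul_X (by simpa [lineSubst, lineSubstInv] using hasSubst_lineSubstInv c), Fin.cons_zero,
            ← mul_assoc, ← map_mul, mul_inv_cancel₀ hc, map_one, one_mul]
        · simp only [lineSubstInv, lineSubst, Fin.cons_succ]
          have ha := hasSubst_lineSubstInv c
          simp only [lineSubstInv] at ha
          rw [subst_add ha, subst_X ha, subst_C_mul_X ha, Fin.cons_zero, Fin.cons_succ, ← mul_assoc,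
            ← map_mul]
          field_simp
          ring
      simp only [AlgHom.id_apply, substAlgHom_apply]
      simp only [substAlgHom_apply] at h
      rw [h, subst_self, id_eq])

theorem axis_lineSubst {n : ℕ} (c : Fin (n + 1) → K) (i : Fin (n + 1)) :
    axis n (lineSubst c i) = PowerSeries.C (c i) * PowerSeries.X := by
  refine Fin.cases ?_ (fun j => ?_) i <;>
    simp [lineSubst, axis_X_zero, axis_X_succ, axis_C]

/-- A nonzero power series does not vanish on all lines through the origin. -/
theorem exists_axis_lineEquiv_ne_zero [Infinite K] {n : ℕ}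
    {f : MvPowerSeries (Fin (n + 1)) K} (hf : f ≠ 0) :
    ∃ c : Fin (n + 1) → K, ∃ hc : c 0 ≠ 0, axis n (lineEquiv c hc f) ≠ 0 := by
  classical
  obtain ⟨d₀, hd₀⟩ : ∃ d, coeff d f ≠ 0 := by
    by_contra h
    push Not at h
    exact hf (MvPowerSeries.ext fun d => by simpa using h d)
  set k := d₀.degree with hk
  let S : Finset (Fin (n + 1) →₀ ℕ) :=
    (Finset.finsuppAntidiag (Finset.univ : Finset (Fin (n + 1))) k)
  have hS : ∀ d : Fin (n + 1) →₀ ℕ, d ∈ S ↔ d.degree = k := by
    intro d
    simp [S, Finsupp.degree_eq_sum]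
  let P : MvPolynomial (Fin (n + 1)) K := ∑ d ∈ S, MvPolynomial.monomial d (coeff d f)
  have hP : P ≠ 0 := by
    intro h
    apply hd₀
    have := congrArg (MvPolynomial.coeff d₀) h
    simpa [P, MvPolynomial.coeff_sum, MvPolynomial.coeff_monomial, hS, hk] using this
  obtain ⟨c, hc⟩ : ∃ c : Fin (n + 1) → K, MvPolynomial.eval c (MvPolynomial.X 0 * P) ≠ 0 := by
    by_contra h
    push Not at h
    exact mul_ne_zero (MvPolynomial.X_ne_zero 0) hP
      (MvPolynomial.funext (fun x => by simpa using h x))
  rw [map_mul, MvPolynomial.eval_X] at hc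
  refine ⟨c, left_ne_zero_of_mul hc, fun h => right_ne_zero_of_mul hc ?_⟩
  have h' := congrArg (PowerSeries.coeff k) h
  rw [map_zero, coeff_axis] at h'
  rw [← h']
  show _ = coeff (Finsupp.single 0 k) (substAlgHom (hasSubst_lineSubst c) f)
  rw [substAlgHom_apply, coeff_subst (hasSubst_lineSubst c)]
  have hprod : ∀ d : Fin (n + 1) →₀ ℕ,
      coeff (Finsupp.single 0 k) (d.prod fun s e => lineSubst c s ^ e) =
        if d.degree = k then d.prod (fun s e => c s ^ e) else 0 := by
    intro d
    rw [← coeff_axis, map_finsuppProd]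
    simp only [Finsupp.prod, map_pow, axis_lineSubst, mul_pow, Finset.prod_mul_distrib,
      Finset.prod_pow_eq_pow_sum]
    simp only [← map_pow, ← map_prod]
    have hX : ∑ i ∈ d.support, d i = d.degree := (Finsupp.degree_apply d).symm
    rw [hX, PowerSeries.coeff_C_mul, PowerSeries.coeff_X_pow]
    by_cases hdk : d.degree = k
    · rw [if_pos hdk.symm, if_pos hdk, mul_one]
    · rw [if_neg (Ne.symm hdk), if_neg hdk, mul_zero]
  rw [finsum_eq_sum_of_support_subset _ (s := S)]
  · simp only [P, map_sum, MvPolynomial.eval_monomial, smul_eq_mul]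
    refine Finset.sum_congr rfl fun d hd => ?_
    rw [hprod, if_pos ((hS d).mp hd)]
  · intro d hd
    rw [Finset.mem_coe, hS]
    by_contra hdk
    exact hd (by simp only [hprod, if_neg hdk, smul_zero])

/-- The inductive step: over a complete local factorial ring, a prime ideal of the power series
ring containing a series which is nonzero modulo the maximal ideal contains a prime element. -/
theorem exists_prime_mem_powerSeries {A : Type u} [CommRing A] [IsDomain A]
    [UniqueFactorizationMonoid A] [IsLocalRing A]
    [IsAdicComplete (IsLocalRing.maximalIdeal A) A]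
    (Q : Ideal (PowerSeries A)) [Q.IsPrime] {g : PowerSeries A} (hg : g ∈ Q)
    (hg0 : g.map (IsLocalRing.residue A) ≠ 0) : ∃ q ∈ Q, Prime q := by
  classical
  obtain ⟨p, h, H⟩ := PowerSeries.exists_isWeierstrassFactorization hg0
  have hmonic : p.Monic := H.isDistinguishedAt.monic
  have hpQ : (p : PowerSeries A) ∈ Q := by
    rcases ‹Q.IsPrime›.mem_or_mem (H.eq_mul ▸ hg : (p : PowerSeries A) * h ∈ Q) with h1 | h1
    · exact h1
    · exact absurd (Ideal.eq_top_of_isUnit_mem Q h1 H.isUnit) ‹Q.IsPrime›.ne_top
  let QA : Ideal (Polynomial A) := Q.comap (Polynomial.coeToPowerSeries.ringHom)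
  have : QA.IsPrime := Ideal.comap_isPrime _ _
  obtain ⟨s, hs, hsprod⟩ := UniqueFactorizationMonoid.exists_prime_factors p hmonic.ne_zero
  have hsQ : s.prod ∈ QA := by
    obtain ⟨v, hv⟩ := hsprod
    rw [← Ideal.mul_unit_mem_iff_mem QA v.isUnit, hv]
    exact hpQ
  obtain ⟨q, hqs, hqQ⟩ := (Ideal.IsPrime.multiset_prod_mem_iff_exists_mem ‹QA.IsPrime› s).mp hsQ
  have hqp : q ∣ p := (Multiset.dvd_prod hqs).trans hsprod.dvd
  have hlead : IsUnit q.leadingCoeff := by
    obtain ⟨r, hr⟩ := hqp
    have := congrArg Polynomial.leadingCoeff hr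
    rw [hmonic.leadingCoeff, Polynomial.leadingCoeff_mul] at this
    exact IsUnit.of_mul_eq_one _ this.symm
  obtain ⟨w, hw⟩ := hlead
  let q' : Polynomial A := Polynomial.C (↑w⁻¹ : A) * q
  have hq'monic : q'.Monic := by
    rw [Polynomial.Monic, Polynomial.leadingCoeff_mul, Polynomial.leadingCoeff_C, ← hw,
      Units.inv_mul]
  have hunit : IsUnit (Polynomial.C (↑w⁻¹ : A)) := Polynomial.isUnit_C.mpr w⁻¹.isUnit
  have hq'prime : Prime q' := by
    have : Associated q q' := ⟨hunit.unit, by simp [q', mul_comm]⟩
    exact this.prime (hs q hqs)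
  have hq'Q : q' ∈ QA := QA.mul_mem_left _ hqQ
  have hq'p : q' ∣ p := by
    simpa [q'] using (hunit.mul_left_dvd).mpr hqp
  set k := IsLocalRing.residue A with hk
  have hmap : q'.map k = Polynomial.X ^ q'.natDegree := by
    have hpmap : p.map k = Polynomial.X ^ p.natDegree := H.isDistinguishedAt.map_eq_X_pow
    obtain ⟨j, _, hj⟩ := (dvd_prime_pow Polynomial.prime_X _).mp
      (hpmap ▸ Polynomial.map_dvd k hq'p)
    have heq := Polynomial.eq_of_monic_of_associated (hq'monic.map k) (Polynomial.monic_X_pow j) hj
    rw [← hq'monic.natDegree_map k]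
    rw [heq, Polynomial.natDegree_X_pow]
  have hdist : q'.IsDistinguishedAt (IsLocalRing.maximalIdeal A) := by
    refine ⟨⟨fun {i} hi => ?_⟩, hq'monic⟩
    rw [← IsLocalRing.ker_residue, RingHom.mem_ker, ← Polynomial.coeff_map, hmap,
      Polynomial.coeff_X_pow, if_neg hi.ne]
  refine ⟨(q' : PowerSeries A), hq'Q, ?_⟩
  have : (Ideal.span {q'}).IsPrime :=
    (Ideal.span_singleton_prime hq'prime.ne_zero).mpr hq'prime
  have : IsDomain (Polynomial A ⧸ Ideal.span {q'}) := Ideal.Quotient.isDomain _
  have : IsDomain (PowerSeries A ⧸ Ideal.span {(q' : PowerSeries A)}) :=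
    hdist.algEquivQuotient.symm.toMulEquiv.isDomain
  exact (Ideal.span_singleton_prime (by exact_mod_cast hq'prime.ne_zero)).mp
    ((Ideal.Quotient.isDomain_iff_prime _).mp inferInstance)

/-- Formal power series in finitely many variables over an infinite field form a UFD. -/
theorem uniqueFactorizationMonoid_mvPowerSeries [Infinite K] :
    ∀ n : ℕ, UniqueFactorizationMonoid (MvPowerSeries (Fin n) K)
  | 0 => (isEmptyEquiv (Fin 0) K).symm.toMulEquiv.uniqueFactorizationMonoid inferInstance
  | n + 1 => by
    have := uniqueFactorizationMonoid_mvPowerSeries n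
    have := isAdicComplete_mvPowerSeries (K := K) n
    have : IsDomain (MvPowerSeries (Fin n) K) := NoZeroDivisors.to_isDomain _
    have : IsDomain (MvPowerSeries (Fin (n + 1)) K) := NoZeroDivisors.to_isDomain _
    refine UniqueFactorizationMonoid.iff_exists_prime_mem_of_isPrime.mpr fun P hP0 hP => ?_
    obtain ⟨f, hfP, hf⟩ := Submodule.exists_mem_ne_zero_of_ne_bot hP0
    obtain ⟨c, hc, hax⟩ := exists_axis_lineEquiv_ne_zero hf
    let e := ((lineEquiv c hc).trans (finSuccEquiv K n)).toRingEquiv
    let Q : Ideal (PowerSeries (MvPowerSeries (Fin n) K)) := P.comap e.symm.toRingHom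
    have : Q.IsPrime := Ideal.comap_isPrime _ _
    have hres : (e f).map (IsLocalRing.residue (MvPowerSeries (Fin n) K)) ≠ 0 := by
      intro h
      apply hax
      ext i
      have hi := congrArg (PowerSeries.coeff i) h
      rw [PowerSeries.coeff_map, map_zero, IsLocalRing.residue_eq_zero_iff,
        IsLocalRing.mem_maximalIdeal, mem_nonunits_iff, isUnit_iff_constantCoeff,
        isUnit_iff_ne_zero, not_not] at hi
      rw [map_zero]
      simpa [axis, e] using hi
    have hfQ : e f ∈ Q := by simpa [Q] using hfP
    obtain ⟨q, hq, hqp⟩ := exists_prime_mem_powerSeries Q hfQ hres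
    exact ⟨e.symm q, hq, (MulEquiv.prime_iff e.symm.toMulEquiv).mpr hqp⟩

/-!
Formal power series in finitely many variables over an infinite field form a unique
factorisation domain (Weierstrass preparation and induction on the number of variables).
-/

end FermatAgent.AbVar.Local
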