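import Mathlib
import Fermat.Agent.AbVar.Local.PowerSeriesUFD
import Fermat.Agent.AbVar.Local.Descent

set_option autoImplicit false

open MvPolynomial (idealOfVars)
open IsLocalRing (maximalIdeal)

namespace FermatAgent.AbVar.Local

universe u

/-- `t` is a system of coordinates at the closed point of the local `K`-algebra `R`: it generates
the maximal ideal, the residue field is `K`, and the jets of `t` satisfy no relations. -/
structure IsCoordinateSystem (K : Type u) [Field K] {R : Type u} [CommRing R] [IsLocalRing R]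
    [Algebra K R] {g : ℕ} (t : Fin g → R) : Prop where
  span_eq : Ideal.span (Set.range t) = maximalIdeal R
  exists_const : ∀ r : R, ∃ c : K, r - algebraMap K R c ∈ maximalIdeal R
  mem_pow : ∀ (k : ℕ) (P : MvPolynomial (Fin g) K),
    MvPolynomial.aeval t P ∈ maximalIdeal R ^ k → P ∈ idealOfVars (Fin g) K ^ k

namespace IsCoordinateSystem

variable {K : Type u} [Field K] {R : Type u} [CommRing R] [IsLocalRing R] [Algebra K R] {g : ℕ}
  {t : Fin g → R}

theorem map_idealOfVars (h : IsCoordinateSystem K t) :
    (idealOfVars (Fin g) K).map (MvPolynomial.aeval t (R := K)) = maximalIdeal R := by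
  rw [idealOfVars, Ideal.map_span, ← Set.range_comp, ← h.span_eq]
  congr 2
  ext i
  simp

/-- Every element is a polynomial in the coordinates up to any power of the maximal ideal. -/
theorem exists_aeval_sub_mem (h : IsCoordinateSystem K t) (k : ℕ) (r : R) :
    ∃ P : MvPolynomial (Fin g) K, r - MvPolynomial.aeval t P ∈ maximalIdeal R ^ k := by
  induction k generalizing r with
  | zero => exact ⟨0, by simp⟩
  | succ k ih =>
    obtain ⟨c, hc⟩ := h.exists_const r
    rw [← h.span_eq, Ideal.mem_span_range_iff_exists_fun] at hc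
    obtain ⟨a, ha⟩ := hc
    choose P hP using fun i => ih (a i)
    refine ⟨MvPolynomial.C c + ∑ i, P i * MvPolynomial.X i, ?_⟩
    have : r - MvPolynomial.aeval t (MvPolynomial.C c + ∑ i, P i * MvPolynomial.X i) =
        ∑ i, (a i - MvPolynomial.aeval t (P i)) * t i := by
      simp only [map_add, map_sum, map_mul, MvPolynomial.aeval_C, MvPolynomial.aeval_X, sub_mul,
        Finset.sum_sub_distrib, ha]
      ring
    rw [this, pow_succ]
    exact Ideal.sum_mem _ fun i _ => Ideal.mul_mem_mul (hP i)
      (h.span_eq ▸ Ideal.subset_span ⟨i, rfl⟩)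

/-- The jets at the closed point. -/
theorem bijective_quotient (h : IsCoordinateSystem K t) (k : ℕ)
    (H : idealOfVars (Fin g) K ^ k ≤
      (maximalIdeal R ^ k).comap (MvPolynomial.aeval t (R := K)).toRingHom) :
    Function.Bijective (Ideal.quotientMap (maximalIdeal R ^ k)
      (MvPolynomial.aeval t (R := K)).toRingHom H) := by
  refine ⟨(injective_iff_map_eq_zero _).mpr fun x hx => ?_, fun y => ?_⟩
  · obtain ⟨P, rfl⟩ := Ideal.Quotient.mk_surjective x
    rw [Ideal.quotientMap_mk, Ideal.Quotient.eq_zero_iff_mem] at hx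
    exact Ideal.Quotient.eq_zero_iff_mem.mpr (h.mem_pow k P hx)
  · obtain ⟨r, rfl⟩ := Ideal.Quotient.mk_surjective y
    obtain ⟨P, hP⟩ := h.exists_aeval_sub_mem k r
    refine ⟨Ideal.Quotient.mk _ P, ?_⟩
    rw [Ideal.quotientMap_mk, Ideal.Quotient.mk_eq_mk_iff_sub_mem]
    rw [← neg_mem_iff, neg_sub]
    exact hP

theorem le_comap (h : IsCoordinateSystem K t) (k : ℕ) :
    idealOfVars (Fin g) K ^ k ≤
      (maximalIdeal R ^ k).comap (MvPolynomial.aeval t (R := K)).toRingHom := by
  rw [← Ideal.map_le_iff_le_comap, Ideal.map_pow]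
  exact (congrArg (· ^ k) h.map_idealOfVars).le

/-- The jets of order `k` as a ring isomorphism. -/
noncomputable def jetEquiv (h : IsCoordinateSystem K t) (k : ℕ) :
    (MvPolynomial (Fin g) K ⧸ idealOfVars (Fin g) K ^ k) ≃+* R ⧸ maximalIdeal R ^ k :=
  RingEquiv.ofBijective _ (h.bijective_quotient k (h.le_comap k))

theorem jetEquiv_factor (h : IsCoordinateSystem K t) {j k : ℕ} (hjk : j ≤ k)
    (x : MvPolynomial (Fin g) K ⧸ idealOfVars (Fin g) K ^ k) :
    Ideal.Quotient.factorPow _ hjk (h.jetEquiv k x) =
      h.jetEquiv j (Ideal.Quotient.factorPow _ hjk x) := by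
  obtain ⟨P, rfl⟩ := Ideal.Quotient.mk_surjective x
  rfl

theorem factorPow_evalₐ {A : Type u} [CommRing A] (I : Ideal A) {j k : ℕ} (hjk : j ≤ k)
    (x : AdicCompletion I A) : Ideal.Quotient.factorPow I hjk (AdicCompletion.evalₐ I k x) =
      AdicCompletion.evalₐ I j x := by
  induction x using AdicCompletion.induction_on with
  | _ c =>
    rw [AdicCompletion.evalₐ_mk, AdicCompletion.evalₐ_mk, Ideal.Quotient.factor_mk]
    exact AdicCompletion.Ideal.mk_eq_mk I hjk c

/-- The completion of `R` is the ring of formal power series. -/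
noncomputable def completionEquiv (h : IsCoordinateSystem K t) :
    AdicCompletion (idealOfVars (Fin g) K) (MvPolynomial (Fin g) K) ≃+*
      AdicCompletion (maximalIdeal R) R := by
  let F := fun k => (h.jetEquiv k).toRingHom.comp
    (AdicCompletion.evalₐ (idealOfVars (Fin g) K) k).toRingHom
  let G := fun k => (h.jetEquiv k).symm.toRingHom.comp
    (AdicCompletion.evalₐ (maximalIdeal R) k).toRingHom
  have hF : ∀ {j k : ℕ} (hjk : j ≤ k),
      (Ideal.Quotient.factorPow _ hjk).comp (F k) = F j := by
    intro j k hjk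
    refine RingHom.ext fun x => ?_
    simp only [F, RingHom.comp_apply, RingEquiv.toRingHom_eq_coe, RingHom.coe_coe,
      AlgHom.toRingHom_eq_coe, h.jetEquiv_factor]
    congr 1
    exact factorPow_evalₐ _ hjk x
  have hG : ∀ {j k : ℕ} (hjk : j ≤ k),
      (Ideal.Quotient.factorPow _ hjk).comp (G k) = G j := by
    intro j k hjk
    refine RingHom.ext fun x => ?_
    apply (h.jetEquiv j).injective
    simp only [G, RingHom.comp_apply, RingEquiv.toRingHom_eq_coe, RingHom.coe_coe,
      AlgHom.toRingHom_eq_coe, RingEquiv.apply_symm_apply, ← h.jetEquiv_factor]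
    exact factorPow_evalₐ _ hjk x
  refine RingEquiv.ofRingHom (AdicCompletion.liftRingHom _ F hF)
    (AdicCompletion.liftRingHom _ G hG) ?_ ?_
  · refine RingHom.ext fun x => AdicCompletion.ext_evalₐ fun k => ?_
    rw [RingHom.comp_apply, AdicCompletion.evalₐ_liftRingHom, RingHom.id_apply]
    show h.jetEquiv k (AdicCompletion.evalₐ _ k (AdicCompletion.liftRingHom _ G hG x)) = _
    rw [AdicCompletion.evalₐ_liftRingHom]
    exact (h.jetEquiv k).apply_symm_apply _
  · refine RingHom.ext fun x => AdicCompletion.ext_evalₐ fun k => ?_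
    rw [RingHom.comp_apply, AdicCompletion.evalₐ_liftRingHom, RingHom.id_apply]
    show (h.jetEquiv k).symm (AdicCompletion.evalₐ _ k (AdicCompletion.liftRingHom _ F hF x)) = _
    rw [AdicCompletion.evalₐ_liftRingHom]
    exact (h.jetEquiv k).symm_apply_apply _

/-- A Noetherian local algebra with a coordinate system is a factorial domain. -/
theorem isDomain_and_ufd [Infinite K] [IsNoetherianRing R] (h : IsCoordinateSystem K t) :
    IsDomain R ∧ UniqueFactorizationMonoid R := by
  let e := ((MvPowerSeries.toAdicCompletionAlgEquiv (Fin g) K).toRingEquiv.trans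
    h.completionEquiv).toMulEquiv
  have : IsDomain (MvPowerSeries (Fin g) K) := NoZeroDivisors.to_isDomain _
  have : IsDomain (AdicCompletion (maximalIdeal R) R) := e.symm.isDomain
  have : UniqueFactorizationMonoid (AdicCompletion (maximalIdeal R) R) :=
    e.uniqueFactorizationMonoid (uniqueFactorizationMonoid_mvPowerSeries g)
  have : Module.FaithfullyFlat R (AdicCompletion (maximalIdeal R) R) :=
    Module.FaithfullyFlat.of_flat_of_isLocalHom
  exact isDomain_and_uniqueFactorizationMonoid (AdicCompletion (maximalIdeal R) R)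

end IsCoordinateSystem

/-- Centred coordinates at a rational point of an étale algebra over a polynomial ring. -/
theorem exists_coordinateSystem_of_etale {K : Type u} [Field K] {g : ℕ} {B : Type u} [CommRing B]
    [Algebra K B] [Algebra (MvPolynomial (Fin g) K) B]
    [IsScalarTower K (MvPolynomial (Fin g) K) B]
    [Algebra.FormallyEtale (MvPolynomial (Fin g) K) B] (φ : B →ₐ[K] K)
    (R : Type u) [CommRing R] [IsLocalRing R] [Algebra B R] [Algebra K R] [IsScalarTower K B R]
    [(RingHom.ker φ).IsPrime] [IsNoetherianRing R] [IsLocalization.AtPrime R (RingHom.ker φ)] :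
    IsCoordinateSystem K (fun i => algebraMap B R
      (algebraMap (MvPolynomial (Fin g) K) B (MvPolynomial.X i) -
        algebraMap K B (φ (algebraMap (MvPolynomial (Fin g) K) B (MvPolynomial.X i))))) := by
  set p := RingHom.ker φ with hp
  let u : Fin g → B := fun i => algebraMap (MvPolynomial (Fin g) K) B (MvPolynomial.X i)
  let a : Fin g → K := fun i => φ (u i)
  let y : Fin g → B := fun i => u i - algebraMap K B (a i)
  change IsCoordinateSystem K (fun i => algebraMap B R (y i))
  have hy : ∀ i, y i ∈ p := fun i => by simp [hp, y, a, RingHom.mem_ker]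
  have hm : p.map (algebraMap B R) = maximalIdeal R :=
    IsLocalization.AtPrime.map_eq_maximalIdeal p R
  have hsub : ∀ b : B, b - algebraMap K B (φ b) ∈ p := fun b => by
    simp [hp, RingHom.mem_ker]
  -- unramifiedness at the point
  have hunr : p ≤ Ideal.span (Set.range y) ⊔ p ^ 2 := by
    set J := Ideal.span (Set.range y) ⊔ p ^ 2 with hJ
    let N : Ideal (B ⧸ J) := p.map (Ideal.Quotient.mk J)
    have hN : IsNilpotent N := ⟨2, by
      rw [Ideal.zero_eq_bot, ← Ideal.map_pow, Ideal.map_eq_bot_iff_le_ker, Ideal.mk_ker]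
      exact le_sup_right⟩
    let q : B →ₐ[MvPolynomial (Fin g) K] B ⧸ J := Ideal.Quotient.mkₐ _ J
    let r₀ : B →+* B ⧸ J := ((Ideal.Quotient.mk J).comp (algebraMap K B)).comp φ.toRingHom
    have hr₀ : ∀ P : MvPolynomial (Fin g) K,
        r₀ (algebraMap _ B P) = algebraMap (MvPolynomial (Fin g) K) (B ⧸ J) P := by
      suffices r₀.comp (algebraMap _ B) = algebraMap (MvPolynomial (Fin g) K) (B ⧸ J) from
        fun P => RingHom.congr_fun this P
      refine MvPolynomial.ringHom_ext (fun c => ?_) (fun i => ?_)
      · show Ideal.Quotient.mk J (algebraMap K B (φ (algebraMap _ B (MvPolynomial.C c)))) =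
          Ideal.Quotient.mk J (algebraMap _ B (MvPolynomial.C c))
        rw [← MvPolynomial.algebraMap_eq, ← IsScalarTower.algebraMap_apply, φ.commutes]
        rfl
      · rw [IsScalarTower.algebraMap_apply _ B (B ⧸ J), Ideal.Quotient.algebraMap_eq]
        simp only [r₀, RingHom.comp_apply, Ideal.Quotient.mk_eq_mk_iff_sub_mem]
        rw [← neg_mem_iff, neg_sub]
        exact Ideal.mem_sup_left (Ideal.subset_span ⟨i, rfl⟩)
    let r : B →ₐ[MvPolynomial (Fin g) K] B ⧸ J := { r₀ with commutes' := hr₀ }
    have hqr : q = r := by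
      refine Algebra.FormallyUnramified.lift_unique N hN q r (AlgHom.ext fun b => ?_)
      simp only [AlgHom.comp_apply, Ideal.Quotient.mkₐ_eq_mk, Ideal.Quotient.mk_eq_mk_iff_sub_mem]
      exact Ideal.mem_map_of_mem _ (hsub b)
    intro b hb
    have := AlgHom.congr_fun hqr b
    simp only [q, Ideal.Quotient.mkₐ_eq_mk] at this
    have hr : r b = 0 := by
      show Ideal.Quotient.mk J (algebraMap K B (φ b)) = 0
      rw [(RingHom.mem_ker.mp hb : φ b = 0), map_zero, map_zero]
    rw [hr] at this
    exact Ideal.Quotient.eq_zero_iff_mem.mp this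
  refine ⟨le_antisymm ?_ ?_, fun r => ?_, fun k P hP => ?_⟩
  · rw [Ideal.span_le]
    rintro _ ⟨i, rfl⟩
    exact hm ▸ Ideal.mem_map_of_mem _ (hy i)
  · refine Submodule.le_of_le_smul_of_le_jacobson_bot (I := maximalIdeal R)
      (Ideal.fg_of_isNoetherianRing _) (IsLocalRing.maximalIdeal_le_jacobson _) ?_
    calc maximalIdeal R = p.map (algebraMap B R) := hm.symm
        _ ≤ (Ideal.span (Set.range y) ⊔ p ^ 2).map (algebraMap B R) := Ideal.map_mono hunr
        _ ≤ _ := by
            rw [Ideal.map_sup, Ideal.map_span, ← Set.range_comp, Ideal.map_pow, hm, pow_two]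
            exact le_rfl
  · obtain ⟨⟨b, s⟩, rfl⟩ := IsLocalization.mk'_surjective p.primeCompl r
    have hs : φ s.1 ≠ 0 := fun h => s.2 (RingHom.mem_ker.mpr h)
    refine ⟨φ b / φ s.1, ?_⟩
    have hunit : IsUnit (algebraMap B R s.1) := IsLocalization.map_units R s
    rw [← Ideal.mul_unit_mem_iff_mem _ hunit, sub_mul, IsLocalization.mk'_spec,
      IsScalarTower.algebraMap_apply K B R, ← map_mul, ← map_sub, ← hm]
    refine Ideal.mem_map_of_mem _ (RingHom.mem_ker.mpr ?_)
    simp [div_mul_cancel₀ _ hs]
  · rcases Nat.eq_zero_or_pos k with rfl | hk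
    · simp
    let σ : MvPolynomial (Fin g) K →ₐ[K] MvPolynomial (Fin g) K :=
      MvPolynomial.aeval fun i => MvPolynomial.X i - MvPolynomial.C (a i)
    let σ' : MvPolynomial (Fin g) K →ₐ[K] MvPolynomial (Fin g) K :=
      MvPolynomial.aeval fun i => MvPolynomial.X i + MvPolynomial.C (a i)
    have hσ : σ'.comp σ = AlgHom.id K _ := by
      refine MvPolynomial.algHom_ext fun i => ?_
      simp [σ, σ']
    let I := (idealOfVars (Fin g) K).map σ
    let C := MvPolynomial (Fin g) K ⧸ I ^ k
    let M : Ideal C := I.map (Ideal.Quotient.mk (I ^ k))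
    have hMk : M ^ k = ⊥ := by
      show (I.map (Ideal.Quotient.mk (I ^ k))) ^ k = ⊥
      exact (Ideal.map_pow _ I k).symm.trans (Ideal.map_quotient_self _)
    let g₀ : B →+* C ⧸ M :=
      ((Ideal.Quotient.mk M).comp (algebraMap K C)).comp φ.toRingHom
    have hg₀ : ∀ Q : MvPolynomial (Fin g) K,
        g₀ (algebraMap _ B Q) = algebraMap (MvPolynomial (Fin g) K) (C ⧸ M) Q := by
      suffices g₀.comp (algebraMap _ B) = algebraMap (MvPolynomial (Fin g) K) (C ⧸ M) from
        fun Q => RingHom.congr_fun this Q
      refine MvPolynomial.ringHom_ext (fun c => ?_) (fun i => ?_)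
      · show Ideal.Quotient.mk M (algebraMap K C (φ (algebraMap _ B (MvPolynomial.C c)))) =
          Ideal.Quotient.mk M (algebraMap _ C (MvPolynomial.C c))
        rw [← MvPolynomial.algebraMap_eq, ← IsScalarTower.algebraMap_apply,
          ← IsScalarTower.algebraMap_apply, φ.commutes]
        rfl
      · show Ideal.Quotient.mk M (algebraMap K C (a i)) =
          Ideal.Quotient.mk M (Ideal.Quotient.mk (I ^ k) (MvPolynomial.X i))
        rw [eq_comm, Ideal.Quotient.mk_eq_mk_iff_sub_mem,
          IsScalarTower.algebraMap_apply K (MvPolynomial (Fin g) K) C]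
        refine Ideal.mem_map_of_mem (Ideal.Quotient.mk (I ^ k))
          (x := MvPolynomial.X i - MvPolynomial.C (a i)) ?_
        have hX : σ (MvPolynomial.X i) = MvPolynomial.X i - MvPolynomial.C (a i) := by simp [σ]
        rw [← hX]
        exact Ideal.mem_map_of_mem σ (Ideal.subset_span ⟨i, rfl⟩ :
          (MvPolynomial.X i : MvPolynomial (Fin g) K) ∈ idealOfVars (Fin g) K)
    obtain ⟨ψ, hψ⟩ := Algebra.FormallySmooth.exists_lift (A := B) M ⟨k, hMk⟩
      { g₀ with commutes' := hg₀ }
    have hψφ : ∀ b, ψ b - algebraMap K C (φ b) ∈ M := fun b => by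
      have := AlgHom.congr_fun hψ b
      rwa [AlgHom.comp_apply, Ideal.Quotient.mkₐ_eq_mk, ← sub_eq_zero,
        show ({ g₀ with commutes' := hg₀ } : B →ₐ[MvPolynomial (Fin g) K] C ⧸ M) b =
          Ideal.Quotient.mk M (algebraMap K C (φ b)) from rfl, ← map_sub,
        Ideal.Quotient.eq_zero_iff_mem] at this
    have hψp : ∀ b ∈ p, ψ b ∈ M := fun b hb => by
      simpa [(RingHom.mem_ker.mp hb : φ b = 0)] using hψφ b
    have hunits : ∀ s : p.primeCompl, IsUnit (ψ.toRingHom s) := fun s => by
      have hs : φ s.1 ≠ 0 := fun h => s.2 (RingHom.mem_ker.mpr h)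
      have hn : IsNilpotent (ψ s.1 - algebraMap K C (φ s.1)) := ⟨k, by
        have := Ideal.pow_mem_pow (hψφ s.1) k
        rwa [hMk, Ideal.mem_bot] at this⟩
      simpa using hn.isUnit_add_left_of_commute ((isUnit_iff_ne_zero.mpr hs).map (algebraMap K C))
        (Commute.all _ _)
    let ψR : R →+* C := IsLocalization.lift hunits
    have hψy : ∀ i, ψ (y i) = Ideal.Quotient.mk _ (σ (MvPolynomial.X i)) := fun i => by
      simp only [y, map_sub, u]
      rw [ψ.commutes, IsScalarTower.algebraMap_apply K (MvPolynomial (Fin g) K) B, ψ.commutes]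
      simp [σ, MvPolynomial.algebraMap_eq, Ideal.Quotient.algebraMap_eq, C]
    have hcomp : ψR.comp (MvPolynomial.aeval (fun i => algebraMap B R (y i)) (R := K)).toRingHom =
        (Ideal.Quotient.mk (I ^ k)).comp σ.toRingHom := by
      refine MvPolynomial.ringHom_ext (fun c => ?_) (fun i => ?_)
      · simp only [ψR, RingHom.comp_apply, AlgHom.toRingHom_eq_coe, RingHom.coe_coe,
          MvPolynomial.aeval_C, IsScalarTower.algebraMap_apply K B R, IsLocalization.lift_eq]
        rw [IsScalarTower.algebraMap_apply K (MvPolynomial (Fin g) K) B, ψ.commutes]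
        simp [σ, MvPolynomial.algebraMap_eq, Ideal.Quotient.algebraMap_eq, C]
      · simpa [ψR, IsLocalization.lift_eq] using hψy i
    have hmap : (maximalIdeal R).map ψR ≤ M := by
      rw [← hm, Ideal.map_map, Ideal.map_le_iff_le_comap]
      intro b hb
      simpa [ψR, IsLocalization.lift_eq] using hψp b hb
    have h1 := Ideal.mem_map_of_mem ψR hP
    rw [Ideal.map_pow] at h1
    have h2 := Ideal.pow_right_mono hmap k h1
    rw [hMk, Ideal.mem_bot] at h2
    have h3 := RingHom.congr_fun hcomp P
    simp only [RingHom.comp_apply] at h3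
    rw [show ψR ((MvPolynomial.aeval (fun i => algebraMap B R (y i)) (R := K)).toRingHom P) = 0
      from h2] at h3
    have h4 := Ideal.mem_map_of_mem σ' (Ideal.Quotient.eq_zero_iff_mem.mp h3.symm)
    rw [Ideal.map_pow, Ideal.map_mapₐ, hσ] at h4
    have h5 : σ' (σ P) = P := AlgHom.congr_fun hσ P
    simpa [h5] using h4

/-- The local ring of a standard smooth algebra of relative dimension `g` at a rational point has
coordinates coming from the algebra. -/
theorem exists_coordinateSystem_of_isStandardSmooth {K : Type u} [Field K] {g : ℕ} {B : Type u}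
    [CommRing B] [Algebra K B] [Algebra.IsStandardSmoothOfRelativeDimension g K B] (φ : B →ₐ[K] K)
    (R : Type u) [CommRing R] [IsLocalRing R] [IsNoetherianRing R] [Algebra B R] [Algebra K R]
    [IsScalarTower K B R] [(RingHom.ker φ).IsPrime]
    [IsLocalization.AtPrime R (RingHom.ker φ)] :
    ∃ y : Fin g → B, (∀ i, φ (y i) = 0) ∧
      IsCoordinateSystem K (fun i => algebraMap B R (y i)) := by
  obtain ⟨f, hf⟩ := Algebra.IsStandardSmoothOfRelativeDimension.exists_etale_mvPolynomial g K B
  let : Algebra (MvPolynomial (Fin g) K) B := f.toRingHom.toAlgebra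
  have : IsScalarTower K (MvPolynomial (Fin g) K) B :=
    IsScalarTower.of_algebraMap_eq fun c => (f.commutes c).symm
  have : Algebra.Etale (MvPolynomial (Fin g) K) B := hf
  exact ⟨_, fun i => by simp, exists_coordinateSystem_of_etale φ R⟩

/-- The local ring of a smooth algebra at a rational point is a factorial domain. -/
theorem isDomain_and_ufd_of_isStandardSmooth {K : Type u} [Field K] [Infinite K] {g : ℕ}
    {B : Type u} [CommRing B] [Algebra K B] [Algebra.IsStandardSmoothOfRelativeDimension g K B]
    (φ : B →ₐ[K] K) (R : Type u) [CommRing R] [IsLocalRing R] [IsNoetherianRing R] [Algebra B R]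
    [Algebra K R] [IsScalarTower K B R] [(RingHom.ker φ).IsPrime]
    [IsLocalization.AtPrime R (RingHom.ker φ)] : IsDomain R ∧ UniqueFactorizationMonoid R := by
  obtain ⟨y, -, hy⟩ := exists_coordinateSystem_of_isStandardSmooth (g := g) φ R
  exact hy.isDomain_and_ufd


/-!
Jets at a rational point of an étale algebra over a polynomial ring, and the consequence that
the local ring there is a unique factorisation domain.
-/

end FermatAgent.AbVar.Local
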