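import Mathlib
import Fermat.Agent.AbVar.Local.Jets

set_option autoImplicit false

open MvPolynomial (idealOfVars)
open IsLocalRing (maximalIdeal)

noncomputable section

namespace FermatAgent.AbVar.Local

universe u

/-- The exponents of total degree at most `k`. -/
def lowExponents (g k : ℕ) : Finset (Fin g →₀ ℕ) :=
  (Finset.finsuppAntidiag (Finset.univ : Finset (Fin (g + 1))) k).image Finsupp.tail

theorem mem_lowExponents {g k : ℕ} {d : Fin g →₀ ℕ} :
    d ∈ lowExponents g k ↔ d.degree ≤ k := by
  simp only [lowExponents, Finset.mem_image, Finset.mem_finsuppAntidiag, Finset.subset_univ,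
    and_true, Finsupp.degree_eq_sum, Fin.sum_univ_succ]
  constructor
  · rintro ⟨e, he, rfl⟩
    simp only [Finsupp.tail_apply]
    omega
  · intro hd
    refine ⟨Finsupp.cons (k - ∑ i, d i) d, ?_, Finsupp.tail_cons _ _⟩
    simp only [Finsupp.cons_zero, Finsupp.cons_succ]
    omega

namespace IsCoordinateSystem

variable {K : Type u} [Field K] {R : Type u} [CommRing R] [IsLocalRing R] [Algebra K R] {g : ℕ}
  {t : Fin g → R}

theorem completionEquiv_of (h : IsCoordinateSystem K t) (P : MvPolynomial (Fin g) K) :
    h.completionEquiv (AdicCompletion.of (idealOfVars (Fin g) K) _ P) =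
      AdicCompletion.of (maximalIdeal R) R (MvPolynomial.aeval t P) := by
  refine AdicCompletion.ext_evalₐ fun k => ?_
  rw [AdicCompletion.evalₐ_of]
  simp only [completionEquiv, RingEquiv.ofRingHom_apply, AdicCompletion.evalₐ_liftRingHom]
  show h.jetEquiv k (AdicCompletion.evalₐ _ k _) = _
  rw [AdicCompletion.evalₐ_of]
  rfl

/-- The expansion in the coordinates, as a ring map. -/
def seriesRingHom (h : IsCoordinateSystem K t) : R →+* MvPowerSeries (Fin g) K :=
  ((MvPowerSeries.toAdicCompletionAlgEquiv (Fin g) K).toRingEquiv.trans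
    h.completionEquiv).symm.toRingHom.comp (algebraMap R (AdicCompletion (maximalIdeal R) R))

theorem seriesRingHom_aeval (h : IsCoordinateSystem K t) (P : MvPolynomial (Fin g) K) :
    h.seriesRingHom (MvPolynomial.aeval t P) = (P : MvPowerSeries (Fin g) K) := by
  simp only [seriesRingHom, RingHom.comp_apply, RingEquiv.toRingHom_eq_coe, RingHom.coe_coe,
    RingEquiv.symm_apply_eq, RingEquiv.trans_apply, AdicCompletion.algebraMap_apply,
    Algebra.algebraMap_self, RingHom.id_apply]
  rw [← h.completionEquiv_of, ← MvPowerSeries.toAdicCompletion_coe]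
  rfl

/-- The expansion in the coordinates. -/
def toPowerSeries (h : IsCoordinateSystem K t) : R →ₐ[K] MvPowerSeries (Fin g) K :=
  { h.seriesRingHom with
    commutes' := fun c => by
      have := h.seriesRingHom_aeval (MvPolynomial.C c)
      rw [MvPolynomial.aeval_C, MvPolynomial.coe_C] at this
      exact this }

theorem toPowerSeries_aeval (h : IsCoordinateSystem K t) (P : MvPolynomial (Fin g) K) :
    h.toPowerSeries (MvPolynomial.aeval t P) = (P : MvPowerSeries (Fin g) K) :=
  h.seriesRingHom_aeval P

theorem toPowerSeries_coord (h : IsCoordinateSystem K t) (i : Fin g) :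
    h.toPowerSeries (t i) = MvPowerSeries.X i := by
  simpa using h.toPowerSeries_aeval (MvPolynomial.X i)

theorem coeff_toPowerSeries_of_mem_pow (h : IsCoordinateSystem K t) {k : ℕ} {r : R}
    (hr : r ∈ maximalIdeal R ^ k) {d : Fin g →₀ ℕ} (hd : d.degree < k) :
    MvPowerSeries.coeff d (h.toPowerSeries r) = 0 := by
  revert d
  rw [← h.map_idealOfVars, ← Ideal.map_pow] at hr
  induction hr using Submodule.span_induction with
  | mem x hx =>
    obtain ⟨P, hP, rfl⟩ := hx
    intro d hd
    rw [h.toPowerSeries_aeval, MvPolynomial.coeff_coe]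
    exact (MvPolynomial.mem_pow_idealOfVars_iff' k P).mp hP d hd
  | zero => intro d _; rw [map_zero, map_zero]
  | add x y _ _ hx hy => intro d hd; rw [map_add, map_add, hx hd, hy hd, add_zero]
  | smul a x _ hx =>
    intro d hd
    classical
    rw [smul_eq_mul, map_mul, MvPowerSeries.coeff_mul]
    refine Finset.sum_eq_zero fun p hp => ?_
    rw [Finset.HasAntidiagonal.mem_antidiagonal] at hp
    rw [hx (lt_of_le_of_lt (by rw [← hp, map_add]; exact Nat.le_add_left _ _) hd), mul_zero]

theorem mem_pow_iff (h : IsCoordinateSystem K t) {k : ℕ} {r : R} :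
    r ∈ maximalIdeal R ^ k ↔
      ∀ d : Fin g →₀ ℕ, d.degree < k → MvPowerSeries.coeff d (h.toPowerSeries r) = 0 := by
  refine ⟨fun hr d hd => h.coeff_toPowerSeries_of_mem_pow hr hd, fun H => ?_⟩
  obtain ⟨P, hP⟩ := h.exists_aeval_sub_mem k r
  have hPI : P ∈ idealOfVars (Fin g) K ^ k := by
    rw [MvPolynomial.mem_pow_idealOfVars_iff']
    intro d hd
    have := h.coeff_toPowerSeries_of_mem_pow hP hd
    rw [map_sub, map_sub, H d hd, zero_sub, neg_eq_zero, h.toPowerSeries_aeval,
      MvPolynomial.coeff_coe] at this
    exact this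
  have := add_mem hP (h.le_comap k hPI : MvPolynomial.aeval t P ∈ maximalIdeal R ^ k)
  simpa using this

theorem toPowerSeries_injective [IsNoetherianRing R] (h : IsCoordinateSystem K t) :
    Function.Injective h.toPowerSeries := by
  refine (injective_iff_map_eq_zero _).mpr fun r hr => ?_
  have : r ∈ ⨅ k, maximalIdeal R ^ k :=
    Ideal.mem_iInf.mpr fun k => h.mem_pow_iff.mpr fun d _ => by rw [hr, map_zero]
  rwa [Ideal.iInf_pow_eq_bot_of_isLocalRing _ (maximalIdeal.isMaximal R).ne_top,
    Ideal.mem_bot] at this

theorem algebraicIndependent (h : IsCoordinateSystem K t) : AlgebraicIndependent K t := by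
  rw [algebraicIndependent_iff]
  intro P hP
  have := h.toPowerSeries_aeval P
  rw [hP, map_zero] at this
  exact MvPolynomial.coe_injective _ _ (by rw [← this, MvPolynomial.coe_zero])

/-- The jet of order `k`: the coefficients of total degree at most `k`. -/
def jet (h : IsCoordinateSystem K t) (k : ℕ) : R →ₗ[K] (lowExponents g k → K) :=
  LinearMap.pi fun d => (MvPowerSeries.coeff d.1).comp h.toPowerSeries.toLinearMap

theorem jet_apply (h : IsCoordinateSystem K t) (k : ℕ) (r : R) (d : lowExponents g k) :
    h.jet k r d = MvPowerSeries.coeff d.1 (h.toPowerSeries r) := rfl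

theorem jet_eq_zero_iff (h : IsCoordinateSystem K t) {k : ℕ} {r : R} :
    h.jet k r = 0 ↔ r ∈ maximalIdeal R ^ (k + 1) := by
  rw [h.mem_pow_iff]
  refine ⟨fun H d hd => ?_, fun H => funext fun d => ?_⟩
  · exact congrFun H ⟨d, mem_lowExponents.mpr (Nat.lt_succ_iff.mp hd)⟩
  · exact H d.1 (Nat.lt_succ_iff.mpr (mem_lowExponents.mp d.2))

/-- The monomial in the coordinates with exponent `d`. -/
def mon (_h : IsCoordinateSystem K t) (d : Fin g →₀ ℕ) : R := d.prod fun i e => t i ^ e

theorem jet_mon (h : IsCoordinateSystem K t) (k : ℕ) (d : lowExponents g k) :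
    h.jet k (h.mon d.1) = Pi.single d 1 := by
  classical
  funext e
  have hmon : h.mon d.1 = MvPolynomial.aeval t (MvPolynomial.monomial d.1 (1 : K)) := by
    simp [mon, MvPolynomial.aeval_monomial]
  rw [jet_apply, hmon, h.toPowerSeries_aeval, MvPolynomial.coeff_coe,
    MvPolynomial.coeff_monomial]
  by_cases hde : e = d
  · subst hde; simp
  · rw [Pi.single_eq_of_ne hde, if_neg fun heq => hde (Subtype.ext heq.symm)]

theorem jet_surjective (h : IsCoordinateSystem K t) (k : ℕ) :
    Function.Surjective (h.jet k) := fun f => by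
  classical
  refine ⟨∑ d, f d • h.mon d.1, ?_⟩
  funext e
  simp [h.jet_mon, Pi.single_apply]

end IsCoordinateSystem

/-- A standard smooth domain has, at each rational point, coordinates forming a transcendence
basis of its fraction field. -/
theorem exists_coordinates_isTranscendenceBasis {K : Type u} [Field K] {g : ℕ} {B : Type u}
    [CommRing B] [IsDomain B] [Algebra K B] [Algebra.IsStandardSmoothOfRelativeDimension g K B]
    (φ : B →ₐ[K] K) (R : Type u) [CommRing R] [IsLocalRing R] [IsNoetherianRing R] [Algebra B R]
    [Algebra K R] [IsScalarTower K B R] [(RingHom.ker φ).IsPrime]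
    [IsLocalization.AtPrime R (RingHom.ker φ)]
    (F : Type u) [Field F] [Algebra B F] [Algebra K F] [IsScalarTower K B F]
    [IsFractionRing B F] :
    ∃ y : Fin g → B, (∀ i, φ (y i) = 0) ∧
      IsCoordinateSystem K (fun i => algebraMap B R (y i)) ∧
      IsTranscendenceBasis K (fun i => algebraMap B F (y i)) ∧ Algebra.trdeg K F = g := by
  obtain ⟨f, hf⟩ := Algebra.IsStandardSmoothOfRelativeDimension.exists_etale_mvPolynomial g K B
  let : Algebra (MvPolynomial (Fin g) K) B := f.toRingHom.toAlgebra
  have : IsScalarTower K (MvPolynomial (Fin g) K) B :=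
    IsScalarTower.of_algebraMap_eq fun c => (f.commutes c).symm
  have : Algebra.Etale (MvPolynomial (Fin g) K) B := hf
  let u : Fin g → B := fun i => algebraMap (MvPolynomial (Fin g) K) B (MvPolynomial.X i)
  let y : Fin g → B := fun i => u i - algebraMap K B (φ (u i))
  have hy : IsCoordinateSystem K (fun i => algebraMap B R (y i)) :=
    exists_coordinateSystem_of_etale φ R
  have hyB : AlgebraicIndependent K y :=
    AlgebraicIndependent.of_comp (IsScalarTower.toAlgHom K B R) hy.algebraicIndependent
  have hyF : AlgebraicIndependent K (fun i => algebraMap B F (y i)) :=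
    hyB.map' (f := IsScalarTower.toAlgHom K B F) (IsFractionRing.injective B F)
  let : Algebra (MvPolynomial (Fin g) K) F :=
    ((algebraMap B F).comp (algebraMap (MvPolynomial (Fin g) K) B)).toAlgebra
  have : IsScalarTower (MvPolynomial (Fin g) K) B F := IsScalarTower.of_algebraMap_eq' rfl
  have : IsScalarTower K (MvPolynomial (Fin g) K) F := IsScalarTower.of_algebraMap_eq fun c => by
    rw [IsScalarTower.algebraMap_apply K B F, IsScalarTower.algebraMap_apply K
      (MvPolynomial (Fin g) K) B]
    rfl
  set A := Algebra.adjoin K (Set.range fun i => algebraMap B F (y i)) with hA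
  have hmemA : ∀ P : MvPolynomial (Fin g) K, algebraMap _ F P ∈ A := by
    intro P
    induction P using MvPolynomial.induction_on with
    | C c =>
      rw [← MvPolynomial.algebraMap_eq, ← IsScalarTower.algebraMap_apply]
      exact A.algebraMap_mem c
    | add p q hp hq => rw [map_add]; exact add_mem hp hq
    | mul_X p i hp =>
      rw [map_mul]
      refine mul_mem hp ?_
      have h1 : algebraMap (MvPolynomial (Fin g) K) F (MvPolynomial.X i) =
          algebraMap B F (y i) + algebraMap K F (φ (u i)) := by
        rw [IsScalarTower.algebraMap_apply (MvPolynomial (Fin g) K) B F,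
          IsScalarTower.algebraMap_apply K B F, ← map_add, sub_add_cancel]
      rw [h1]
      exact add_mem (Algebra.subset_adjoin ⟨i, rfl⟩) (A.algebraMap_mem _)
  have hinj : Function.Injective (algebraMap (MvPolynomial (Fin g) K) F) := by
    let σ : MvPolynomial (Fin g) K →ₐ[K] MvPolynomial (Fin g) K :=
      MvPolynomial.aeval fun i => MvPolynomial.X i + MvPolynomial.C (φ (u i))
    let σ' : MvPolynomial (Fin g) K →ₐ[K] MvPolynomial (Fin g) K :=
      MvPolynomial.aeval fun i => MvPolynomial.X i - MvPolynomial.C (φ (u i))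
    have hσ : σ'.comp σ = AlgHom.id K _ := MvPolynomial.algHom_ext fun i => by simp [σ, σ']
    have heq : IsScalarTower.toAlgHom K (MvPolynomial (Fin g) K) F =
        (MvPolynomial.aeval fun i => algebraMap B F (y i)).comp σ := by
      refine MvPolynomial.algHom_ext fun i => ?_
      simp only [σ, AlgHom.comp_apply, IsScalarTower.coe_toAlgHom', MvPolynomial.aeval_X,
        map_add, MvPolynomial.aeval_C]
      rw [IsScalarTower.algebraMap_apply (MvPolynomial (Fin g) K) B F,
        IsScalarTower.algebraMap_apply K B F, ← map_add, sub_add_cancel]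
    intro P Q hPQ
    have h1 := AlgHom.congr_fun heq P
    have h2 := AlgHom.congr_fun heq Q
    simp only [IsScalarTower.coe_toAlgHom', AlgHom.comp_apply] at h1 h2
    have h3 : σ P = σ Q := hyF (h1.symm.trans (hPQ.trans h2))
    simpa [← AlgHom.comp_apply, hσ] using congrArg σ' h3
  have : FaithfulSMul (MvPolynomial (Fin g) K) F :=
    (faithfulSMul_iff_algebraMap_injective _ _).mpr hinj
  let L := FractionRing (MvPolynomial (Fin g) K)
  let : Algebra L F := FractionRing.liftAlgebra (MvPolynomial (Fin g) K) F
  have : IsScalarTower (MvPolynomial (Fin g) K) L F := inferInstance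
  have : Algebra.FormallyUnramified B F :=
    Algebra.FormallyUnramified.of_isLocalization (nonZeroDivisors B)
  have : Algebra.FormallyUnramified (MvPolynomial (Fin g) K) F :=
    Algebra.FormallyUnramified.comp _ B F
  have : Algebra.FormallyUnramified L F :=
    Algebra.FormallyUnramified.of_restrictScalars (MvPolynomial (Fin g) K) L F
  have : Algebra.EssFiniteType B F := Algebra.EssFiniteType.of_isLocalization F (nonZeroDivisors B)
  have : Algebra.EssFiniteType (MvPolynomial (Fin g) K) F := Algebra.EssFiniteType.comp _ B F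
  have : Algebra.EssFiniteType L F := Algebra.EssFiniteType.of_comp (MvPolynomial (Fin g) K) L F
  have : Algebra.IsSeparable L F := Algebra.FormallyUnramified.isSeparable L F
  have : Algebra.IsAlgebraic (MvPolynomial (Fin g) K) F :=
    (IsFractionRing.comap_isAlgebraic_iff (A := MvPolynomial (Fin g) K) (K := L) (C := F)).mpr
      inferInstance
  have halg : Algebra.IsAlgebraic A F := by
    refine ⟨fun x => ?_⟩
    obtain ⟨p, hp, hpx⟩ := Algebra.IsAlgebraic.isAlgebraic (R := MvPolynomial (Fin g) K) x
    let ι : MvPolynomial (Fin g) K →ₐ[K] A :=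
      (IsScalarTower.toAlgHom K (MvPolynomial (Fin g) K) F).codRestrict A hmemA
    refine ⟨p.map ι.toRingHom, (Polynomial.map_ne_zero_iff fun P Q h => hinj
      (congrArg Subtype.val h)).mpr hp, ?_⟩
    rw [Polynomial.aeval_def, Polynomial.eval₂_map]
    exact hpx
  have hT : IsTranscendenceBasis K (fun i => algebraMap B F (y i)) :=
    hyF.isTranscendenceBasis_iff_isAlgebraic.mpr halg
  refine ⟨y, fun i => by simp [y], hy, hT, ?_⟩
  have := hT.lift_cardinalMk_eq_trdeg
  simpa using this.symm

/-!
Expansion of a local ring in a coordinate system, its jets, and transcendence bases coming from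
coordinates.
-/

end FermatAgent.AbVar.Local
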