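import Mathlib
import Fermat.Agent.AbVar.Local.Series

set_option autoImplicit false

open MvPolynomial (idealOfVars)
open IsLocalRing (maximalIdeal)

noncomputable section

namespace FermatAgent.AbVar.Local

universe u

variable {K : Type u} [Field K] {R : Type u} [CommRing R] [IsLocalRing R] [Algebra K R] {g : ℕ}

/-- Generators of the maximal ideal generate all jets. -/
theorem exists_aeval_sub_mem_of_span {t : Fin g → R}
    (ht : Ideal.span (Set.range t) = maximalIdeal R)
    (hc : ∀ r : R, ∃ c : K, r - algebraMap K R c ∈ maximalIdeal R) (k : ℕ) (r : R) :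
    ∃ P : MvPolynomial (Fin g) K, r - MvPolynomial.aeval t P ∈ maximalIdeal R ^ k := by
  induction k generalizing r with
  | zero => exact ⟨0, by simp⟩
  | succ k ih =>
    obtain ⟨c, hc⟩ := hc r
    rw [← ht, Ideal.mem_span_range_iff_exists_fun] at hc
    obtain ⟨a, ha⟩ := hc
    choose P hP using fun i => ih (a i)
    refine ⟨MvPolynomial.C c + ∑ i, P i * MvPolynomial.X i, ?_⟩
    have : r - MvPolynomial.aeval t (MvPolynomial.C c + ∑ i, P i * MvPolynomial.X i) =
        ∑ i, (a i - MvPolynomial.aeval t (P i)) * t i := by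
      simp only [map_add, map_sum, map_mul, MvPolynomial.aeval_C, MvPolynomial.aeval_X, sub_mul,
        Finset.sum_sub_distrib, ha]
      ring
    rw [this, pow_succ]
    exact Ideal.sum_mem _ fun i _ => Ideal.mul_mem_mul (hP i)
      (ht ▸ Ideal.subset_span ⟨i, rfl⟩)

/-- Any `g` generators of the maximal ideal form a coordinate system, if one exists. -/
theorem IsCoordinateSystem.of_span {s : Fin g → R} (hs : IsCoordinateSystem K s) {t : Fin g → R}
    (ht : Ideal.span (Set.range t) = maximalIdeal R) : IsCoordinateSystem K t := by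
  classical
  refine ⟨ht, hs.exists_const, fun k P hP => ?_⟩
  rcases k with _ | k
  · simp
  -- the change of jets
  let low : (lowExponents g k → K) →ₗ[K] MvPolynomial (Fin g) K :=
    { toFun := fun f => ∑ d, MvPolynomial.monomial d.1 (f d)
      map_add' := fun f f' => by simp [Finset.sum_add_distrib]
      map_smul' := fun c f => by simp [Finset.smul_sum, MvPolynomial.smul_monomial] }
  let Φ := (hs.jet k).comp ((MvPolynomial.aeval t (R := K)).toLinearMap.comp low)
  have hΦ : ∀ f, Φ f = hs.jet k (MvPolynomial.aeval t (low f)) := fun f => rfl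
  have hcoeff : ∀ (f : lowExponents g k → K) (e : lowExponents g k),
      MvPolynomial.coeff e.1 (low f) = f e := fun f e => by
    simp [low, MvPolynomial.coeff_sum, MvPolynomial.coeff_monomial]
  have htrunc : ∀ Q : MvPolynomial (Fin g) K,
      Q - low (fun d => Q.coeff d.1) ∈ idealOfVars (Fin g) K ^ (k + 1) := fun Q => by
    rw [MvPolynomial.mem_pow_idealOfVars_iff']
    intro d hd
    have := hcoeff (fun d => Q.coeff d.1) ⟨d, mem_lowExponents.mpr (Nat.lt_succ_iff.mp hd)⟩
    rw [MvPolynomial.coeff_sub, this, sub_self]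
  have hpow : ∀ Q ∈ idealOfVars (Fin g) K ^ (k + 1),
      MvPolynomial.aeval t Q ∈ maximalIdeal R ^ (k + 1) := fun Q hQ => by
    have hmap : (idealOfVars (Fin g) K).map (MvPolynomial.aeval t (R := K)) = maximalIdeal R := by
      rw [idealOfVars, Ideal.map_span, ← Set.range_comp, ← ht]
      congr 2
      ext i
      simp
    rw [← hmap, ← Ideal.map_pow]
    exact Ideal.mem_map_of_mem _ hQ
  have hsurj : Function.Surjective Φ := fun y => by
    obtain ⟨r, rfl⟩ := hs.jet_surjective k y
    obtain ⟨Q, hQ⟩ := exists_aeval_sub_mem_of_span ht hs.exists_const (k + 1) r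
    refine ⟨fun d => Q.coeff d.1, ?_⟩
    have := add_mem hQ (hpow _ (htrunc Q))
    rw [map_sub] at this
    have h0 : r - MvPolynomial.aeval t (low fun d => Q.coeff d.1) ∈ maximalIdeal R ^ (k + 1) := by
      convert this using 1; ring
    rw [← hs.jet_eq_zero_iff, map_sub, sub_eq_zero] at h0
    rw [hΦ]
    exact h0.symm
  have hinj : Function.Injective Φ := LinearMap.injective_iff_surjective.mpr hsurj
  have h1 : MvPolynomial.aeval t (low fun d => P.coeff d.1) ∈ maximalIdeal R ^ (k + 1) := by
    have := sub_mem hP (hpow _ (htrunc P))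
    rw [map_sub] at this
    convert this using 1; ring
  have h1' := hs.jet_eq_zero_iff.mpr h1
  rw [← hΦ, ← map_zero Φ] at h1'
  have h2 : (fun d : lowExponents g k => P.coeff d.1) = 0 := hinj h1'
  have h3 := htrunc P
  rw [h2, map_zero, sub_zero] at h3
  exact h3

/-!
Any generators of the maximal ideal in the right number form a coordinate system.
-/

end FermatAgent.AbVar.Local
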